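import Fermat.Agent.TWUni.Alg
import Fermat.Agent.TWGal.Tame
import Fermat.Agent.TWGal.TameInertia

set_option autoImplicit false
set_option maxHeartbeats 400000

/-! **The local bound at a unipotent prime** -/

namespace Fermat.Agent.TWUni

open Matrix Fermat.Agent.FlatLoc Fermat.Agent.TWGal

local notation "Qbar" => AlgebraicClosure ℚ
local notation "GQ" => (AlgebraicClosure ℚ ≃ₐ[ℚ] AlgebraicClosure ℚ)

section main

variable {p q : ℕ} [hp : Fact p.Prime] (hq : q.Prime) (hpq : p ≠ q) (hp2 : p ≠ 2)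
  {k : Type*} [Field k] [CharP k p] {ρ : GQ →* Matrix (Fin 2) (Fin 2) k} (hρ : FinLev ρ 1)
  {A : ValuationSubring Qbar} (hA : A.LiesOverPrime q)
  (hI : ∀ σ ∈ A.inertiaSubgroupIn ℚ, (ρ σ - 1) * (ρ σ - 1) = 0)
  (hne : ∃ σ ∈ A.inertiaSubgroupIn ℚ, ρ σ ≠ 1)

/-- the local conditions -/
structure Cond (ρ : GQ →* Matrix (Fin 2) (Fin 2) k) (A : ValuationSubring Qbar)
    (C : GQ → Matrix (Fin 2) (Fin 2) k) : Prop where
  coc : IsCock ρ C
  tr : ∀ σ, (C σ).trace = 0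
  lev : FinLev C 0
  unip : ∀ σ ∈ A.inertiaSubgroupIn ℚ, (C σ * ρ σ).trace = 0

include hq hpq hρ hA hI in
theorem exists_eq_of {C : GQ → Matrix (Fin 2) (Fin 2) k} (hC : IsCock ρ C) (hl : FinLev C 0)
    {φ σ₀ : GQ} (hφ : A.IsFrobeniusAt φ q) (hσI : σ₀ ∈ A.inertiaSubgroupIn ℚ)
    (hσ₀ : ∀ π : Qbar, π ^ p = q → σ₀ π ≠ π) :
    (∀ g ∈ A.decompositionSubgroup ℚ, ∃ (n : ℕ) (j : ℤ), ρ g = ρ (φ ^ n * σ₀ ^ j) ∧
      C g = C (φ ^ n * σ₀ ^ j)) ∧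
    (∀ g ∈ A.inertiaSubgroupIn ℚ, ∃ j : ℤ, ρ g = ρ (σ₀ ^ j)) ∧
    ρ (φ * σ₀ * φ⁻¹) = ρ (σ₀ ^ q) ∧ C (φ * σ₀ * φ⁻¹) = C (σ₀ ^ q) := by
  obtain ⟨K₁, hK₁, h1⟩ := hρ
  obtain ⟨K₂, hK₂, h2⟩ := hl
  haveI := hK₁
  haveI := hK₂
  have hK : ∀ σ : GQ, (∀ x ∈ K₁ ⊔ K₂, σ x = x) → TT hC σ = 1 := fun σ hσ =>
    (TT_eq_one_iff hC).mpr ⟨h1 σ fun x hx => hσ x ((le_sup_left : K₁ ≤ K₁ ⊔ K₂) hx),
      h2 σ fun x hx => hσ x ((le_sup_right : K₂ ≤ K₁ ⊔ K₂) hx)⟩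
  have hpp : ∀ σ ∈ A.inertiaSubgroupIn ℚ, ∃ n : ℕ, TT hC σ ^ (p ^ n) = 1 := fun σ hσ =>
    ⟨2, TT_pow hC (hI σ hσ)⟩
  refine ⟨fun g hg => ?_, fun g hg => ?_, ?_⟩
  · obtain ⟨n, j, h⟩ := exists_decomp_eq hq hA hp.out hpq (TT hC) (K₁ ⊔ K₂) hK hpp hφ hσI hσ₀ hg
    rw [← map_pow, ← map_zpow, ← map_mul, TT_eq_iff] at h
    exact ⟨n, j, h.1, h.2⟩
  · obtain ⟨j, hj⟩ := mem_zpowers_inertia hq hA hp.out hpq
      ((TT hC).comp (A.inertiaSubgroupIn ℚ).subtype) (K₁ ⊔ K₂) (fun σ hσ => hK σ hσ)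
      (fun σ => hpp σ σ.2) (σ₀ := ⟨σ₀, hσI⟩) hσ₀ ⟨g, hg⟩
    have hj' : TT hC σ₀ ^ j = TT hC g := hj
    rw [← map_zpow, TT_eq_iff] at hj'
    exact ⟨j, hj'.1.symm⟩
  · have h := conj_frob hq hA hp.out hpq (TT hC) (K₁ ⊔ K₂) hK hpp hφ hσI hσ₀
    rw [← map_pow, TT_eq_iff] at h
    exact h

include hq hpq hp2 hρ hA hI hne in
/-- **the local bound**: coordinates on the restrictions -/
theorem exists_coord : ∃ E : (A.decompositionSubgroup ℚ → Matrix (Fin 2) (Fin 2) k) →ₗ[k]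
    (Fin 3 → k), ∀ C : GQ → Matrix (Fin 2) (Fin 2) k, Cond ρ A C →
      E (fun g => C g) = 0 → ∀ g ∈ A.decompositionSubgroup ℚ, C g = 0 := by
  obtain ⟨φ, hφ⟩ := Fermat.Agent.Frob.exists_isFrobeniusAt_Qbar A hq hA
  obtain ⟨σ₀, hσI, hσ₀⟩ := exists_inertia_moving hq hA hp.out hpq
  have hσD := inertia_le_decomp hσI
  have hφD := hφ.mem_decompositionSubgroup
  have h00 : IsCock ρ (fun _ => 0) := fun σ τ => by simp
  have hN0 : ρ σ₀ - 1 ≠ 0 := by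
    intro h0
    obtain ⟨σ, hσ, hσne⟩ := hne
    obtain ⟨j, hj⟩ := (exists_eq_of hq hpq hρ hA hI h00 ⟨⊥, inferInstance, fun _ _ => rfl⟩ hφ hσI
      hσ₀).2.1 σ hσ
    apply hσne
    rw [hj]
    have h1 : σ₀ ∈ ρ.ker := sub_eq_zero.mp h0
    exact ρ.ker.zpow_mem h1 j
  obtain ⟨P, Q, hPQ, hQP, hN⟩ := exists_normal_form (hI σ₀ hσI) hN0
  have hq0 : (q : k) ≠ 0 := by
    intro h
    rw [CharP.cast_eq_zero_iff k p] at h
    exact hpq ((Nat.prime_dvd_prime_iff_eq hp.out hq).mp h)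
  have h20 : (2 : k) ≠ 0 := by
    intro h
    have h1 : ((2 : ℕ) : k) = 0 := by exact_mod_cast h
    rw [CharP.cast_eq_zero_iff k p] at h1
    exact hp2 ((Nat.prime_dvd_prime_iff_eq hp.out Nat.prime_two).mp h1)
  have hσ' : cjR ρ hPQ hQP σ₀ = 1 + ee k := by
    rw [cjR_apply, ← hN, mul_sub, sub_mul, mul_one, hQP]
    abel
  let ev : ∀ (g : A.decompositionSubgroup ℚ) (i j : Fin 2),
      (A.decompositionSubgroup ℚ → Matrix (Fin 2) (Fin 2) k) →ₗ[k] k := fun g i j =>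
    { toFun := fun c => (Q * c g * P) i j
      map_add' := fun c d => by
        show (Q * (c g + d g) * P) i j = _
        rw [mul_add, add_mul, Matrix.add_apply]
      map_smul' := fun r c => by
        show (Q * (r • c g) * P) i j = _
        rw [mul_smul_comm, smul_mul_assoc, Matrix.smul_apply]; rfl }
  refine ⟨LinearMap.pi ![ev ⟨σ₀, hσD⟩ 0 0, ev ⟨σ₀, hσD⟩ 0 1, ev ⟨φ, hφD⟩ 0 1],
    fun C hC h0 g hg => ?_⟩
  have z1 : (Q * C σ₀ * P) 0 0 = 0 := congrFun h0 0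
  have z2 : (Q * C σ₀ * P) 0 1 = 0 := congrFun h0 1
  have z3 : (Q * C φ * P) 0 1 = 0 := congrFun h0 2
  obtain ⟨hD, -, hr, hr'⟩ := exists_eq_of hq hpq hρ hA hI hC.coc hC.lev hφ hσI hσ₀
  have htr : ∀ g, (Q * C g * P).trace = 0 := by
    intro g
    rw [Matrix.trace_mul_comm, ← mul_assoc, hPQ, one_mul, hC.tr]
  have h10 : (Q * C σ₀ * P) 1 0 = 0 := by
    have h1 : ((Q * C σ₀ * P) * (1 + ee k)).trace = 0 := by
      rw [← hσ', cjR_apply]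
      have h2 : Q * C σ₀ * P * (Q * ρ σ₀ * P) = Q * (C σ₀ * (P * Q) * ρ σ₀) * P := by
        simp only [mul_assoc]
      rw [h2, hPQ, mul_one, Matrix.trace_mul_comm, ← mul_assoc, hPQ, one_mul]
      exact hC.unip σ₀ hσI
    rw [mul_add, mul_one, Matrix.trace_add, htr, zero_add, Matrix.trace_fin_two] at h1
    simp [Matrix.mul_apply, Fin.sum_univ_two] at h1
    simpa [Matrix.mul_apply, Fin.sum_univ_two] using h1
  obtain ⟨hz1, hz2⟩ := zero_of (isCock_cj ρ hPQ hQP hC.coc) (σ := σ₀) (φ := φ) hq0 h20 htr hσ'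
    (by rw [cjR_apply, cjR_apply, hr]) (by
      show Q * C (φ * σ₀ * φ⁻¹) * P = Q * C (σ₀ ^ q) * P
      rw [hr']) h10 z1 z2 z3
  have hCσ : C σ₀ = 0 := cj_eq_zero hPQ hz1
  have hCφ : C φ = 0 := cj_eq_zero hPQ hz2
  obtain ⟨n, j, -, hg2⟩ := hD g hg
  rw [hg2]
  -- the zero set of a cocycle is a subgroup
  let H : Subgroup GQ :=
    { carrier := {g | C g = 0}
      one_mem' := hC.coc.one
      mul_mem' := by
        intro a b ha hb
        show C (a * b) = 0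
        rw [hC.coc, show C a = 0 from ha, show C b = 0 from hb, mul_zero, zero_mul, add_zero]
      inv_mem' := by
        intro a ha
        show C a⁻¹ = 0
        have h1 := hC.coc a⁻¹ a
        rw [inv_mul_cancel, hC.coc.one, show C a = 0 from ha, mul_zero, zero_mul, add_zero] at h1
        exact h1.symm }
  exact H.mul_mem (H.pow_mem hCφ n) (H.zpow_mem hCσ j)

include hq hpq hp2 hρ hA hI hne in
/-- **the local bound at a unipotent prime** -/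
theorem finrank_le (Z : Submodule k (GQ → Matrix (Fin 2) (Fin 2) k))
    (hZ : ∀ C ∈ Z, Cond ρ A C) :
    Module.Finite k (Z.map (LinearMap.funLeft k (Matrix (Fin 2) (Fin 2) k)
      (Subtype.val : A.decompositionSubgroup ℚ → GQ))) ∧
    Module.finrank k (Z.map (LinearMap.funLeft k (Matrix (Fin 2) (Fin 2) k)
      (Subtype.val : A.decompositionSubgroup ℚ → GQ))) ≤ 3 := by
  obtain ⟨E, hE⟩ := exists_coord hq hpq hp2 hρ hA hI hne
  set Z' := Z.map (LinearMap.funLeft k (Matrix (Fin 2) (Fin 2) k)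
      (Subtype.val : A.decompositionSubgroup ℚ → GQ)) with hZ'
  have hinj : Function.Injective (E.domRestrict Z') := by
    rw [← LinearMap.ker_eq_bot, LinearMap.ker_eq_bot']
    rintro ⟨f, hf⟩ h0
    obtain ⟨C, hC, rfl⟩ := hf
    apply Subtype.ext
    funext g
    exact hE C (hZ C hC) h0 g g.2
  refine ⟨Module.Finite.of_injective _ hinj, ?_⟩
  have h1 := LinearMap.finrank_le_finrank_of_injective hinj
  rwa [Module.finrank_fin_fun] at h1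

end main

end Fermat.Agent.TWUni
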