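import Fermat.Agent.TWUni.Coc

set_option autoImplicit false
set_option maxHeartbeats 400000

/-! The algebra of the tame relation for cocycles. -/

namespace Fermat.Agent.TWUni

open Matrix Fermat.Agent.FlatLoc

section alg

variable {k : Type*} [Field k] {Γ : Type*} [Group Γ] {ρ : Γ →* Matrix (Fin 2) (Fin 2) k}
  {C : Γ → Matrix (Fin 2) (Fin 2) k} (hC : IsCock ρ C)

theorem rho_pow {σ : Γ} (hσ : ρ σ = 1 + ee k) (n : ℕ) : ρ (σ ^ n) = !![1, (n : k); 0, 1] := by
  induction n with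
  | zero =>
    rw [pow_zero, map_one]
    ext i j; fin_cases i <;> fin_cases j <;> simp
  | succ n ih =>
    rw [pow_succ, map_mul, ih, hσ]
    ext i j
    fin_cases i <;> fin_cases j <;> simp [Matrix.mul_apply, Fin.sum_univ_two, add_comm]

theorem inv_unip {A : Matrix (Fin 2) (Fin 2) k} {t : k} (h : !![1, t; 0, 1] * A = 1) :
    A = !![1, -t; 0, 1] := by
  have h1 : !![1, -t; 0, 1] * !![1, t; 0, 1] = (1 : Matrix (Fin 2) (Fin 2) k) := by
    ext i j
    fin_cases i <;> fin_cases j <;> simp [Matrix.mul_apply, Fin.sum_univ_two]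
  have h2 := congrArg (!![1, -t; 0, 1] * ·) h
  simp only [← mul_assoc, h1, one_mul, mul_one] at h2
  exact h2

theorem rho_pow_inv {σ : Γ} (hσ : ρ σ = 1 + ee k) (n : ℕ) :
    ρ (σ ^ n)⁻¹ = !![1, -(n : k); 0, 1] := by
  apply inv_unip
  rw [← rho_pow hσ n]
  exact rho_mul_inv _

include hC in
theorem coc_pow {σ : Γ} (hσ : ρ σ = 1 + ee k) {x y : k} (hx : C σ = !![x, y; 0, -x]) (n : ℕ) :
    C (σ ^ n) = !![n * x, n * y - n * (n - 1) * x; 0, -(n * x)] := by
  induction n with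
  | zero =>
    rw [pow_zero, hC.one]
    ext i j; fin_cases i <;> fin_cases j <;> simp
  | succ n ih =>
    rw [pow_succ, hC, ih, rho_pow hσ n, rho_pow_inv hσ n, hx]
    ext i j
    fin_cases i <;> fin_cases j <;>
      simp [Matrix.mul_apply, Fin.sum_univ_two] <;> ring

include hC in
/-- the linear algebra of the tame relation -/
theorem zero_of {σ φ : Γ} {q : ℕ} (hq0 : (q : k) ≠ 0) (h20 : (2 : k) ≠ 0)
    (htr : ∀ g, (C g).trace = 0) (hσ : ρ σ = 1 + ee k)
    (hrel : ρ (φ * σ * φ⁻¹) = ρ (σ ^ q)) (hrel' : C (φ * σ * φ⁻¹) = C (σ ^ q))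
    (h10 : C σ 1 0 = 0) (hx : C σ 0 0 = 0) (hy : C σ 0 1 = 0) (hv : C φ 0 1 = 0) :
    C σ = 0 ∧ C φ = 0 := by
  have t1 := htr σ
  have t2 := htr φ
  rw [Matrix.trace_fin_two] at t1 t2
  have hCσ : C σ = 0 := by
    ext i j
    fin_cases i <;> fin_cases j
    · exact hx
    · exact hy
    · exact h10
    · show C σ 1 1 = 0
      rw [hx, zero_add] at t1
      exact t1
  refine ⟨hCσ, ?_⟩
  set F := ρ φ with hF
  set G := ρ φ⁻¹ with hG
  have hGF : G * F = 1 := rho_inv_mul φ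
  have hFG : F * G = 1 := rho_mul_inv φ
  have hCq : C (σ ^ q) = 0 := by
    rw [coc_pow hC hσ (x := 0) (y := 0) (by
      rw [hCσ]
      ext i j; fin_cases i <;> fin_cases j <;> simp)]
    ext i j; fin_cases i <;> fin_cases j <;> simp
  -- `F R = R^q F`
  have e1 : F * (1 + ee k) = !![1, (q : k); 0, 1] * F := by
    have h1 : ρ (φ * σ * φ⁻¹) = F * (1 + ee k) * G := by rw [map_mul, map_mul, hσ]
    rw [h1, rho_pow hσ] at hrel
    have h2 := congrArg (· * F) hrel
    simp only [mul_assoc, hGF, mul_one] at h2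
    exact h2
  have a1 := congrFun (congrFun e1 0) 1
  have a2 := congrFun (congrFun e1 1) 1
  simp [Matrix.mul_apply, Fin.sum_univ_two] at a1 a2
  have hf22 : F 1 1 ≠ 0 := by
    have h3 := congrFun (congrFun hFG 1) 1
    rw [Matrix.mul_apply, Fin.sum_univ_two, a2, zero_mul, zero_add, Matrix.one_apply_eq] at h3
    exact left_ne_zero_of_mul_eq_one h3
  -- the relation for `X = C φ`
  have e2 : C φ * F = !![1, (q : k); 0, 1] * C φ * !![1, -(q : k); 0, 1] * F := by
    have h1 : C (φ * σ) = C φ := by rw [hC, hCσ, mul_zero, zero_mul, add_zero]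
    have h2 : C (φ * σ * φ⁻¹ * φ) = C φ := by rw [inv_mul_cancel_right, h1]
    have hinv : ρ (φ * σ * φ⁻¹)⁻¹ = ρ (σ ^ q)⁻¹ := by
      have h3 : ρ (σ ^ q) * ρ (φ * σ * φ⁻¹)⁻¹ = 1 := by rw [← hrel]; exact rho_mul_inv _
      rw [rho_pow hσ] at h3
      rw [inv_unip h3, rho_pow_inv hσ]
    rw [hC, hrel', hCq, zero_add, hrel, hinv, rho_pow hσ, rho_pow_inv hσ] at h2
    rw [h2]
  obtain ⟨u, v, w, z, hX⟩ : ∃ u v w z, C φ = !![u, v; w, z] :=
    ⟨C φ 0 0, C φ 0 1, C φ 1 0, C φ 1 1, by ext i j; fin_cases i <;> fin_cases j <;> rfl⟩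
  rw [hX] at e2 t2 hv
  have hv' : v = 0 := by simpa using hv
  have hz : z = -u := by
    have : u + z = 0 := by simpa using t2
    linear_combination this
  subst hv' hz
  have b1 := congrFun (congrFun e2 0) 0
  have b2 := congrFun (congrFun e2 0) 1
  simp [Matrix.mul_apply, Fin.sum_univ_two] at b1 b2
  have hf00 : F 0 0 = q * F 1 1 := by linear_combination a1
  have hw : w = 0 := by
    have h1 : (q * (q * F 1 1)) * w = 0 := by
      rw [a2] at b1
      rw [hf00] at b1
      linear_combination -b1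
    exact (mul_eq_zero.mp h1).resolve_left (mul_ne_zero hq0 (mul_ne_zero hq0 hf22))
  subst hw
  have hu : u = 0 := by
    have h1 : (2 * q * F 1 1) * u = 0 := by linear_combination b2
    exact (mul_eq_zero.mp h1).resolve_left (mul_ne_zero (mul_ne_zero h20 hq0) hf22)
  subst hu
  rw [hX]
  ext i j; fin_cases i <;> fin_cases j <;> simp

end alg

end Fermat.Agent.TWUni
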