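import Fermat.Agent.FlatLoc.Final2

set_option autoImplicit false
set_option maxHeartbeats 400000

/-! Cocycles and unipotent matrices. -/

namespace Fermat.Agent.TWUni

open Matrix Fermat.Agent.FlatLoc

section cock

variable {k : Type*} [Field k] {Γ : Type*} [Group Γ] {ρ : Γ →* Matrix (Fin 2) (Fin 2) k}
  {C : Γ → Matrix (Fin 2) (Fin 2) k} (hC : IsCock ρ C)

theorem rho_mul_inv (g : Γ) : ρ g * ρ g⁻¹ = 1 := by rw [← map_mul, mul_inv_cancel, map_one]
theorem rho_inv_mul (g : Γ) : ρ g⁻¹ * ρ g = 1 := by rw [← map_mul, inv_mul_cancel, map_one]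

/-- the group valued representation -/
noncomputable def TT : Γ →* (AddMonoid.End ((Fin 2 → k) × (Fin 2 → k)))ˣ :=
  (ext2 ρ C hC).toHomUnits

theorem TT_val (g : Γ) :
    ((TT hC g : (AddMonoid.End ((Fin 2 → k) × (Fin 2 → k)))ˣ) : AddMonoid.End _) =
      ext2 ρ C hC g := rfl

theorem TT_eq_iff {g h : Γ} : TT hC g = TT hC h ↔ ρ g = ρ h ∧ C g = C h := by
  constructor
  · intro H
    have H1 : ∀ x, ext2 ρ C hC g x = ext2 ρ C hC h x := fun x =>
      DFunLike.congr_fun (congrArg Units.val H) x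
    have h1 : ρ g = ρ h := by
      apply Matrix.mulVec_injective
      funext x
      exact congrArg Prod.fst (H1 (x, 0))
    have h2 : C g * ρ g = C h * ρ h := by
      apply Matrix.mulVec_injective
      funext x
      have h3 := congrArg Prod.snd (H1 (x, 0))
      rw [ext2_apply, ext2_apply] at h3
      simp only [Matrix.mulVec_zero, add_zero] at h3
      exact h3
    refine ⟨h1, ?_⟩
    have h3 := congrArg (· * ρ g⁻¹) h2
    simp only [mul_assoc, rho_mul_inv, mul_one] at h3
    rw [h3, ← h1, rho_mul_inv, mul_one]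
  · rintro ⟨h1, h2⟩
    apply Units.ext
    rw [TT_val, TT_val]
    refine AddMonoidHom.ext fun x => ?_
    show ext2 ρ C hC g x = ext2 ρ C hC h x
    rw [ext2_apply, ext2_apply, h1, h2]

theorem TT_eq_one_iff {g : Γ} : TT hC g = 1 ↔ ρ g = 1 ∧ C g = 0 := by
  rw [← map_one (TT hC), TT_eq_iff, map_one, hC.one]

include hC in
theorem coc_pow_mul {σ : Γ} {n : ℕ} (hn : ρ (σ ^ n) = 1) (j : ℕ) :
    C (σ ^ (n * j)) = (j : k) • C (σ ^ n) ∧ ρ (σ ^ (n * j)) = 1 := by
  induction j with
  | zero =>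
    rw [mul_zero, pow_zero, Nat.cast_zero, zero_smul, map_one]
    exact ⟨hC.one, rfl⟩
  | succ j ih =>
    have h1 : ρ (σ ^ (n * (j + 1))) = 1 := by
      rw [mul_add, mul_one, pow_add, map_mul, ih.2, hn, one_mul]
    refine ⟨?_, h1⟩
    rw [mul_add, mul_one, pow_add, hC, ih.1, ih.2]
    have h2 : ρ (σ ^ (n * j))⁻¹ = 1 := by
      have := rho_mul_inv (ρ := ρ) (σ ^ (n * j))
      rwa [ih.2, one_mul] at this
    rw [h2, one_mul, mul_one, Nat.cast_succ, add_smul, one_smul]

/-- elements with unipotent image have `p`-power order in the extension -/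
theorem TT_pow {p : ℕ} [hp : Fact p.Prime] [CharP k p] {σ : Γ}
    (hσ : (ρ σ - 1) * (ρ σ - 1) = 0) : TT hC σ ^ p ^ 2 = 1 := by
  have h1 : ρ (σ ^ p) = 1 := by
    have h2 : (ρ σ - 1) ^ p = 0 := by
      have h3 : (ρ σ - 1) ^ 2 = 0 := by rw [pow_two, hσ]
      exact pow_eq_zero_of_le hp.out.two_le h3
    have h4 : (ρ σ - 1) ^ p = ρ σ ^ p - 1 := by
      have h5 := sub_pow_char_pow_of_commute (p := p) (n := 1) (x := ρ σ)
        (y := (1 : Matrix (Fin 2) (Fin 2) k)) (Commute.one_right _)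
      rwa [pow_one, one_pow] at h5
    rw [map_pow]
    rw [h4] at h2
    exact sub_eq_zero.mp h2
  rw [← map_pow, TT_eq_one_iff, pow_two]
  have h2 := coc_pow_mul hC h1 p
  rw [h2.1, h2.2, CharP.cast_eq_zero, zero_smul]
  exact ⟨rfl, rfl⟩

end cock

section conj

variable {k : Type*} [Field k] {Γ : Type*} [Group Γ] (ρ : Γ →* Matrix (Fin 2) (Fin 2) k)
  {P Q : Matrix (Fin 2) (Fin 2) k} (hPQ : P * Q = 1) (hQP : Q * P = 1)

include hPQ hQP in
/-- conjugated representation -/
def cjR : Γ →* Matrix (Fin 2) (Fin 2) k where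
  toFun g := Q * ρ g * P
  map_one' := by rw [map_one, mul_one, hQP]
  map_mul' g h := by
    rw [map_mul]
    calc Q * (ρ g * ρ h) * P = Q * ρ g * 1 * ρ h * P := by simp only [mul_assoc, one_mul]
      _ = Q * ρ g * (P * Q) * ρ h * P := by rw [hPQ]
      _ = _ := by simp only [mul_assoc]

theorem cjR_apply (g : Γ) : cjR ρ hPQ hQP g = Q * ρ g * P := rfl

theorem isCock_cj {C : Γ → Matrix (Fin 2) (Fin 2) k} (hC : IsCock ρ C) :
    IsCock (cjR ρ hPQ hQP) (fun g => Q * C g * P) := by
  intro σ τ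
  show Q * C (σ * τ) * P = Q * C σ * P + Q * ρ σ * P * (Q * C τ * P) * (Q * ρ σ⁻¹ * P)
  rw [hC]
  have h1 : Q * ρ σ * P * (Q * C τ * P) * (Q * ρ σ⁻¹ * P) =
      Q * ρ σ * (P * Q) * C τ * (P * Q) * ρ σ⁻¹ * P := by simp only [mul_assoc]
  rw [h1, hPQ]
  simp only [mul_assoc, mul_one, one_mul, mul_add, add_mul]

include hPQ in
theorem cj_eq_zero {A : Matrix (Fin 2) (Fin 2) k} (h : Q * A * P = 0) : A = 0 := by
  have h1 : P * (Q * A * P) * Q = (P * Q) * A * (P * Q) := by simp only [mul_assoc]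
  rw [hPQ, one_mul, mul_one] at h1
  rw [← h1, h, mul_zero, zero_mul]

end conj

section unip

variable {k : Type*} [Field k]

/-- the standard nilpotent matrix -/
abbrev ee (k : Type*) [Field k] : Matrix (Fin 2) (Fin 2) k := !![0, 1; 0, 0]

/-- normal form of nilpotent matrices -/
theorem exists_normal_form {N : Matrix (Fin 2) (Fin 2) k} (h2 : N * N = 0) (h0 : N ≠ 0) :
    ∃ P Q : Matrix (Fin 2) (Fin 2) k, P * Q = 1 ∧ Q * P = 1 ∧ Q * N * P = ee k := by
  have key : ∃ j : Fin 2, N *ᵥ Pi.single j 1 ≠ 0 := by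
    by_contra hcon
    push Not at hcon
    apply h0
    ext i j
    have := congrFun (hcon j) i
    rw [Matrix.mulVec_single_one] at this
    exact this
  obtain ⟨j, hj⟩ := key
  set v : Fin 2 → k := Pi.single j 1 with hv
  set w := N *ᵥ v with hw
  have hNw : N *ᵥ w = 0 := by rw [hw, Matrix.mulVec_mulVec, h2, Matrix.zero_mulVec]
  let P : Matrix (Fin 2) (Fin 2) k := !![w 0, v 0; w 1, v 1]
  have hdet : P.det ≠ 0 := by
    intro hd
    rw [Matrix.det_fin_two_of] at hd
    obtain ⟨a, b, hab, hne⟩ : ∃ a b : k, a • w + b • v = 0 ∧ (a ≠ 0 ∨ b ≠ 0) := by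
      by_cases hw0 : w 0 = 0
      · by_cases hw1 : w 1 = 0
        · exact ⟨1, 0, by
            funext i
            fin_cases i
            · simp [hw0]
            · simp [hw1], Or.inl one_ne_zero⟩
        · refine ⟨v 1, -w 1, ?_, Or.inr (neg_ne_zero.mpr hw1)⟩
          funext i
          fin_cases i
          · simp only [Fin.zero_eta, Pi.add_apply, Pi.smul_apply, smul_eq_mul, Pi.zero_apply]
            linear_combination hd
          · simp only [Fin.mk_one, Pi.add_apply, Pi.smul_apply, smul_eq_mul, Pi.zero_apply]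
            ring
      · refine ⟨v 0, -w 0, ?_, Or.inr (neg_ne_zero.mpr hw0)⟩
        funext i
        fin_cases i
        · simp only [Fin.zero_eta, Pi.add_apply, Pi.smul_apply, smul_eq_mul, Pi.zero_apply]
          ring
        · simp only [Fin.mk_one, Pi.add_apply, Pi.smul_apply, smul_eq_mul, Pi.zero_apply]
          linear_combination -hd
    have h3 := congrArg (N *ᵥ ·) hab
    simp only [Matrix.mulVec_add, Matrix.mulVec_smul, hNw, smul_zero, zero_add,
      Matrix.mulVec_zero] at h3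
    rw [← hw] at h3
    have hb : b = 0 := by
      by_contra hb
      exact hj ((smul_eq_zero.mp h3).resolve_left hb)
    subst hb
    rw [zero_smul, add_zero] at hab
    rcases smul_eq_zero.mp hab with ha | ha
    · rcases hne with h | h
      · exact h ha
      · exact h rfl
    · exact hj ha
  have hu : IsUnit P.det := isUnit_iff_ne_zero.mpr hdet
  refine ⟨P, P⁻¹, Matrix.mul_nonsing_inv P hu, Matrix.nonsing_inv_mul P hu, ?_⟩
  have h3 : N * P = P * ee k := by
    have e1 : ∀ i, (N *ᵥ w) i = 0 := fun i => congrFun hNw i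
    have e2 : ∀ i, (N *ᵥ v) i = w i := fun i => rfl
    simp only [Matrix.mulVec, dotProduct, Fin.sum_univ_two] at e1 e2
    ext i j
    rw [Matrix.mul_apply, Matrix.mul_apply, Fin.sum_univ_two, Fin.sum_univ_two]
    fin_cases j
    · have := e1 i
      simp [P]
      exact this
    · have := e2 i
      fin_cases i
      · simp [P]
        exact e2 0
      · simp [P]
        exact e2 1
  rw [mul_assoc, h3, ← mul_assoc, Matrix.nonsing_inv_mul P hu, one_mul]

end unip

end Fermat.Agent.TWUni
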